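import Mathlib
import Fermat.Agent.H6.S16UB.Interfaces

/-!
# P-S16 (helper5): algebra of expansions `F z = ∑ b n e(n z / h)`

`HasExpPS h F f` is `Fermat.Agent.H6.S16UB.HasExp h F (coefficients of f)` for a complex power
series `f`.  It is closed under products (Cauchy product; unconditional convergence in `ℂ` is
absolute convergence), scalar multiples, sums, differences, and passes from `h = 1` to general
`h` by `PowerSeries.expand`.
-/

set_option autoImplicit false

namespace Fermat.Agent.H5.S16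

open UpperHalfPlane
open scoped MatrixGroups ModularForm Real
open Fermat.Agent.H6.S16UB (HasExp)

/-- `F z = ∑ₙ (coeff n f) e(n z / h)` on the upper half plane. -/
def HasExpPS (h : ℕ) (F : ℍ → ℂ) (f : PowerSeries ℂ) : Prop :=
  HasExp h F (fun n => PowerSeries.coeff n f)

theorem hasExpPS_iff (h : ℕ) (F : ℍ → ℂ) (f : PowerSeries ℂ) :
    HasExpPS h F f ↔
      ∀ z : ℍ, HasSum (fun n : ℕ => PowerSeries.coeff n f *
        Function.Periodic.qParam (h : ℝ) (z : ℂ) ^ n) (F z) := Iff.rfl

theorem HasExpPS.congr_fun {h : ℕ} {F G : ℍ → ℂ} {f : PowerSeries ℂ} (hF : HasExpPS h F f)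
    (hFG : ∀ z, F z = G z) : HasExpPS h G f := fun z => by
  rw [← hFG z]; exact hF z

theorem HasExpPS.mul {h : ℕ} {F G : ℍ → ℂ} {f g : PowerSeries ℂ} (hF : HasExpPS h F f)
    (hG : HasExpPS h G g) : HasExpPS h (F * G) (f * g) := by
  intro z
  set x : ℂ := Function.Periodic.qParam (h : ℝ) (z : ℂ) with hx
  have h1 := hF z
  have h2 := hG z
  have n1 : Summable fun n : ℕ => ‖PowerSeries.coeff n f * x ^ n‖ := h1.summable.norm
  have n2 : Summable fun n : ℕ => ‖PowerSeries.coeff n g * x ^ n‖ := h2.summable.norm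
  have hs := (summable_norm_sum_mul_antidiagonal_of_summable_norm n1 n2).of_norm
  have ht := tsum_mul_tsum_eq_tsum_sum_antidiagonal_of_summable_norm n1 n2
  rw [h1.tsum_eq, h2.tsum_eq] at ht
  have hterm : (fun n : ℕ => PowerSeries.coeff n (f * g) * x ^ n) =
      fun n : ℕ => ∑ kl ∈ Finset.HasAntidiagonal.antidiagonal n,
        (PowerSeries.coeff kl.1 f * x ^ kl.1) * (PowerSeries.coeff kl.2 g * x ^ kl.2) := by
    funext n
    rw [PowerSeries.coeff_mul, Finset.sum_mul]
    refine Finset.sum_congr rfl fun kl hkl => ?_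
    rw [← Finset.HasAntidiagonal.mem_antidiagonal.mp hkl, pow_add]
    ring
  show HasSum (fun n : ℕ => PowerSeries.coeff n (f * g) * x ^ n) ((F * G) z)
  rw [hterm, Pi.mul_apply, ht]
  exact hs.hasSum

theorem HasExpPS.add {h : ℕ} {F G : ℍ → ℂ} {f g : PowerSeries ℂ} (hF : HasExpPS h F f)
    (hG : HasExpPS h G g) : HasExpPS h (F + G) (f + g) := by
  intro z
  have := (hF z).add (hG z)
  simpa [add_mul] using this

theorem HasExpPS.sub {h : ℕ} {F G : ℍ → ℂ} {f g : PowerSeries ℂ} (hF : HasExpPS h F f)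
    (hG : HasExpPS h G g) : HasExpPS h (F - G) (f - g) := by
  intro z
  have := (hF z).sub (hG z)
  simpa [sub_mul] using this

theorem HasExpPS.smul {h : ℕ} {F : ℍ → ℂ} {f : PowerSeries ℂ} (hF : HasExpPS h F f) (c : ℂ) :
    HasExpPS h (c • F) (PowerSeries.C c * f) := by
  intro z
  have := (hF z).mul_left c
  simpa [mul_assoc] using this

/-- `e(z) = e(z / h) ^ h`. -/
theorem qParam_one_eq_pow (h : ℕ) (hh : h ≠ 0) (z : ℂ) :
    Function.Periodic.qParam ((1 : ℕ) : ℝ) z = Function.Periodic.qParam (h : ℝ) z ^ h := by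
  have hh' : (h : ℂ) ≠ 0 := by exact_mod_cast hh
  rw [Function.Periodic.qParam, Function.Periodic.qParam, ← Complex.exp_nat_mul]
  congr 1
  push_cast
  field_simp

/-- An expansion in `e(z)` is an expansion in `e(z / h)`. -/
theorem HasExpPS.expand {F : ℍ → ℂ} {f : PowerSeries ℂ} (hF : HasExpPS 1 F f) (h : ℕ)
    (hh : h ≠ 0) : HasExpPS h F (PowerSeries.expand h hh f) := by
  intro z
  have h1 := hF z
  have hinj : Function.Injective (fun m : ℕ => h * m) := fun a b hab =>
    Nat.eq_of_mul_eq_mul_left (Nat.pos_of_ne_zero hh) hab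
  refine (Function.Injective.hasSum_iff hinj ?_).mp ?_
  · intro n hn
    show PowerSeries.coeff n (PowerSeries.expand h hh f) * _ = 0
    rw [PowerSeries.coeff_expand_of_not_dvd, zero_mul]
    rintro ⟨m, rfl⟩
    exact hn ⟨m, rfl⟩
  · convert h1 using 2 with n
    show PowerSeries.coeff (h * n) (PowerSeries.expand h hh f) * _ = PowerSeries.coeff n f * _
    rw [PowerSeries.coeff_expand_mul, qParam_one_eq_pow h hh, pow_mul]

end Fermat.Agent.H5.S16
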