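import Mathlib
import Fermat.Agent.H6.S16UB.Interfaces

/-!
# P-S16 (helper5): reduction modulo a prime over 3 of the expansions of the translates

* `exists_reduction`: the ring `A` of algebraic integers in `ℂ`, a residue field `κ` of
  characteristic 3 and the reduction map `φ : A → κ`.
* `seriesST`, `seriesInf`: the expansions of the translates of `Y = (p² H² - a₀² E₄) / 3`
  over an arbitrary commutative ring, their functoriality, their values over `ℂ`, and their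
  reductions in characteristic 3.
-/

set_option autoImplicit false

namespace Fermat.Agent.H5.S16

open Fermat.Agent.H6.S16UB (upSeries sigmaSeries)

/-! ### The reduction map -/

theorem not_isIntegral_one_third : ¬ IsIntegral ℤ ((3 : ℂ)⁻¹) := by
  intro h
  have h1 : (3 : ℂ)⁻¹ = algebraMap ℚ ℂ ((3 : ℚ)⁻¹) := by simp
  rw [h1, isIntegral_algebraMap_iff (FaithfulSMul.algebraMap_injective ℚ ℂ)] at h
  obtain ⟨y, hy⟩ := IsIntegrallyClosed.isIntegral_iff.mp h
  have h2 : (3 : ℚ) * (y : ℚ) = 1 := by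
    have : (algebraMap ℤ ℚ) y = (y : ℚ) := rfl
    rw [this] at hy
    rw [hy]
    norm_num
  have h3 : (3 : ℤ) * y = 1 := by exact_mod_cast h2
  omega

/-- A subring of `ℂ` consisting of algebraic integers has a residue field of characteristic 3. -/
theorem exists_reduction_aux (A : Subring ℂ) (hA : ∀ x ∈ A, IsIntegral ℤ x) :
    ∃ (κ : Type) (_ : Field κ) (φ : A →+* κ),
      (3 : κ) = 0 ∧ ∀ m : ℤ, φ (m : A) = 0 → (3 : ℤ) ∣ m := by
  have hI : Ideal.span {(3 : A)} ≠ ⊤ := by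
    intro h
    have h1 : (1 : A) ∈ Ideal.span {(3 : A)} := by rw [h]; trivial
    obtain ⟨x, hx⟩ := Ideal.mem_span_singleton'.mp h1
    have hx' : (x : ℂ) * 3 = 1 := by
      have h2 := congrArg A.subtype hx
      rw [map_mul, map_one, map_ofNat] at h2
      exact h2
    have hx3 : (x : ℂ) = (3 : ℂ)⁻¹ := by
      field_simp
      linear_combination hx'
    have hxi : IsIntegral ℤ (x : ℂ) := hA _ x.2
    rw [hx3] at hxi
    exact not_isIntegral_one_third hxi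
  obtain ⟨P, hPmax, hIP⟩ := Ideal.exists_le_maximal _ hI
  have h3P : (3 : A) ∈ P := hIP (Ideal.subset_span rfl)
  refine ⟨A ⧸ P, Ideal.Quotient.field P, Ideal.Quotient.mk P, ?_, ?_⟩
  · have h2 : (Ideal.Quotient.mk P) (3 : A) = 0 := Ideal.Quotient.eq_zero_iff_mem.mpr h3P
    rw [map_ofNat] at h2
    exact h2
  · intro m hm
    by_contra hnd
    have hmP : ((m : ℤ) : A) ∈ P := Ideal.Quotient.eq_zero_iff_mem.mp hm
    have hcop : IsCoprime (3 : ℤ) m := (Int.prime_three.coprime_iff_not_dvd).mpr hnd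
    obtain ⟨u, v, huv⟩ := hcop
    have h1 : (1 : A) ∈ P := by
      have : (1 : A) = (u : A) * 3 + (v : A) * (m : A) := by
        have := congrArg (fun z : ℤ => (z : A)) huv
        simp only [Int.cast_add, Int.cast_mul, Int.cast_one, Int.cast_ofNat] at this
        exact this.symm
      rw [this]
      exact P.add_mem (P.mul_mem_left _ h3P) (P.mul_mem_left _ hmP)
    exact hPmax.ne_top ((Ideal.eq_top_iff_one P).mpr h1)

/-- The ring of algebraic integers in `ℂ` has a residue field of characteristic 3. -/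
theorem exists_reduction (ζ : ℂ) (hζ : IsIntegral ℤ ζ) :
    ∃ (A : Subring ℂ) (κ : Type) (_ : Field κ) (φ : A →+* κ) (ζA : A),
      (ζA : ℂ) = ζ ∧ (3 : κ) = 0 ∧ ∀ m : ℤ, φ (m : A) = 0 → (3 : ℤ) ∣ m := by
  obtain ⟨κ, hκ, φ, h1, h2⟩ := exists_reduction_aux (integralClosure ℤ ℂ).toSubring
    (fun x hx => (mem_integralClosure_iff ℤ ℂ).mp (Subalgebra.mem_toSubring.mp hx))
  exact ⟨(integralClosure ℤ ℂ).toSubring, κ, hκ, φ,
    ⟨ζ, Subalgebra.mem_toSubring.mpr ((mem_integralClosure_iff ℤ ℂ).mpr hζ)⟩, rfl, h1, h2⟩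

/-! ### Power series helpers -/

section Helpers

variable {R : Type*} [CommRing R] {S : Type*} [CommRing S]

theorem ofNat_eq_C (k : ℕ) [k.AtLeastTwo] :
    (OfNat.ofNat k : PowerSeries R) = PowerSeries.C (OfNat.ofNat k : R) :=
  (map_ofNat (PowerSeries.C (R := R)) k).symm

theorem rescale_C' (ζ x : R) : PowerSeries.rescale ζ (PowerSeries.C x) = PowerSeries.C x := by
  ext n
  rw [PowerSeries.coeff_rescale, PowerSeries.coeff_C]
  split_ifs with h
  · subst h; simp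
  · simp

theorem map_map_intCast (f : R →+* S) (w : PowerSeries ℤ) :
    (w.map (Int.castRingHom R)).map f = w.map (Int.castRingHom S) := by
  ext n
  simp

/-- `∑ σ₃(n) qⁿ` over a commutative ring. -/
noncomputable def sigR (R : Type*) [CommRing R] : PowerSeries R :=
  (sigmaSeries 3).map (Int.castRingHom R)

theorem coeff_zero_sigR : PowerSeries.coeff 0 (sigR R) = 0 := by
  simp [sigR, sigmaSeries]

theorem coeff_one_sigR : PowerSeries.coeff 1 (sigR R) = 1 := by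
  simp [sigR, sigmaSeries]

theorem map_sigR (f : R →+* S) : (sigR R).map f = sigR S := map_map_intCast f _

end Helpers

/-! ### The expansions of the translates `Y ∣ S T^j` -/

section ST

variable {R : Type*} [CommRing R] {S : Type*} [CommRing S]

/-- The expansion of `Y ∣ S T^j`, `Y = (p² H² - a₀² E₄) / 3`, where `U_p H = a₀ + 9 w`. -/
noncomputable def seriesST (R : Type*) [CommRing R] (p : ℕ) (hp : p ≠ 0) (ζ : R) (a0 : ℤ)
    (w : PowerSeries ℤ) : PowerSeries R :=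
  3 * (2 * PowerSeries.C (a0 : R) * PowerSeries.rescale ζ (w.map (Int.castRingHom R))
      + 9 * PowerSeries.rescale ζ (w.map (Int.castRingHom R)) ^ 2)
    - 80 * PowerSeries.C (a0 : R) ^ 2 * PowerSeries.expand p hp (sigR R)

theorem map_seriesST (f : R →+* S) (p : ℕ) (hp : p ≠ 0) (ζ : R) (a0 : ℤ) (w : PowerSeries ℤ) :
    (seriesST R p hp ζ a0 w).map f = seriesST S p hp (f ζ) a0 w := by
  simp only [seriesST, map_sub, map_mul, map_add, map_pow, map_ofNat,
    map_intCast, PowerSeries.map_expand, map_sigR, ← PowerSeries.rescale_map, map_map_intCast]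

theorem alg_ST {K : Type*} [CommRing K] (c3i cp2 cpi ca0 r E : K) (h3 : c3i * 3 = 1)
    (hp : cp2 * (cpi * cpi) = 1) :
    c3i * (cp2 * ((cpi * (ca0 + 9 * r)) * (cpi * (ca0 + 9 * r))) - ca0 ^ 2 * (1 + 240 * E)) =
      3 * (2 * ca0 * r + 9 * r ^ 2) - 80 * ca0 ^ 2 * E := by
  linear_combination (c3i * (ca0 + 9 * r) ^ 2) * hp +
    (6 * ca0 * r + 27 * r ^ 2 - 80 * ca0 ^ 2 * E) * h3

theorem seriesST_complex (p : ℕ) (hp : p ≠ 0) (ζ : ℂ) (a0 : ℤ) (w : PowerSeries ℤ)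
    (u E : PowerSeries ℂ)
    (hu : u = PowerSeries.C (a0 : ℂ) + 9 * w.map (Int.castRingHom ℂ))
    (hE : E = 1 + 240 * sigR ℂ) :
    PowerSeries.C (3 : ℂ)⁻¹ * (PowerSeries.C ((p : ℂ) ^ 2) *
        ((PowerSeries.C (-(p : ℂ)⁻¹) * PowerSeries.rescale ζ u) *
         (PowerSeries.C (-(p : ℂ)⁻¹) * PowerSeries.rescale ζ u))
        - PowerSeries.C ((a0 : ℂ) ^ 2) * PowerSeries.expand p hp E) =
      seriesST ℂ p hp ζ a0 w := by
  have hp0 : (p : ℂ) ≠ 0 := by exact_mod_cast hp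
  have h1 : PowerSeries.rescale ζ u =
      PowerSeries.C (a0 : ℂ) + 9 * PowerSeries.rescale ζ (w.map (Int.castRingHom ℂ)) := by
    rw [hu, map_add, map_mul, rescale_C', map_ofNat]
  have h2 : PowerSeries.expand p hp E = 1 + 240 * PowerSeries.expand p hp (sigR ℂ) := by
    rw [hE, map_add, map_mul, map_one, map_ofNat]
  have h3 : PowerSeries.C (3 : ℂ)⁻¹ * 3 = 1 := by
    rw [ofNat_eq_C, ← map_mul]
    simp
  have h4 : PowerSeries.C ((p : ℂ) ^ 2) *
      (PowerSeries.C (-(p : ℂ)⁻¹) * PowerSeries.C (-(p : ℂ)⁻¹)) = 1 := by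
    rw [← map_mul, ← map_mul]
    have : (p : ℂ) ^ 2 * (-(p : ℂ)⁻¹ * -(p : ℂ)⁻¹) = 1 := by
      field_simp
    rw [this, map_one]
  rw [h1, h2, show PowerSeries.C ((a0 : ℂ) ^ 2) = PowerSeries.C (a0 : ℂ) ^ 2 from map_pow _ _ _,
    seriesST]
  exact alg_ST (PowerSeries.C (3 : ℂ)⁻¹) (PowerSeries.C ((p : ℂ) ^ 2))
    (PowerSeries.C (-(p : ℂ)⁻¹)) (PowerSeries.C (a0 : ℂ))
    (PowerSeries.rescale ζ (w.map (Int.castRingHom ℂ))) (PowerSeries.expand p hp (sigR ℂ)) h3 h4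

variable {κ : Type*} [Field κ]

theorem seriesST_char_three (h3 : (3 : κ) = 0) (p : ℕ) (hp : p ≠ 0) (ζ : κ) (a0 : ℤ)
    (w : PowerSeries ℤ) :
    seriesST κ p hp ζ a0 w =
      PowerSeries.C (-80 * (a0 : κ) ^ 2) * PowerSeries.expand p hp (sigR κ) := by
  have h : (3 : PowerSeries κ) = 0 := by rw [ofNat_eq_C, h3, map_zero]
  rw [seriesST, h, zero_mul, zero_sub, map_mul, map_neg, map_pow, map_ofNat]
  ring

theorem coeff_seriesST_of_lt (h3 : (3 : κ) = 0) (p : ℕ) (hp : p ≠ 0) (ζ : κ) (a0 : ℤ)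
    (w : PowerSeries ℤ) {i : ℕ} (hi : i < p) :
    PowerSeries.coeff i (seriesST κ p hp ζ a0 w) = 0 := by
  rw [seriesST_char_three h3, PowerSeries.coeff_C_mul, PowerSeries.coeff_expand]
  split_ifs with hd
  · have hi0 : i = 0 := Nat.eq_zero_of_dvd_of_lt hd hi
    subst hi0
    rw [Nat.zero_div, coeff_zero_sigR, mul_zero]
  · rw [mul_zero]

theorem coeff_seriesST_self (h3 : (3 : κ) = 0) (p : ℕ) (hp : p ≠ 0) (ζ : κ) (a0 : ℤ)
    (w : PowerSeries ℤ) :
    PowerSeries.coeff p (seriesST κ p hp ζ a0 w) = -80 * (a0 : κ) ^ 2 := by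
  rw [seriesST_char_three h3, PowerSeries.coeff_C_mul, PowerSeries.coeff_expand,
    if_pos (dvd_refl p), Nat.div_self (Nat.pos_of_ne_zero hp), coeff_one_sigR, mul_one]

end ST

/-! ### The expansion of `Y` itself -/

section Inf

variable {R : Type*} [CommRing R] {S : Type*} [CommRing S]

/-- The expansion of `Y = (p² H² - a₀² E₄) / 3` in `e(z / p)`, where `H = a₀ + 9 w` and
`p² - 1 = 3 m`. -/
noncomputable def seriesInf (R : Type*) [CommRing R] (p : ℕ) (hp : p ≠ 0) (m a0 : ℤ)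
    (w : PowerSeries ℤ) : PowerSeries R :=
  PowerSeries.expand p hp
    (PowerSeries.C (m : R) * PowerSeries.C (a0 : R) ^ 2
      + 3 * (2 * PowerSeries.C ((p : R) ^ 2) * PowerSeries.C (a0 : R) * w.map (Int.castRingHom R)
        + 9 * PowerSeries.C ((p : R) ^ 2) * w.map (Int.castRingHom R) ^ 2)
      - 80 * PowerSeries.C (a0 : R) ^ 2 * sigR R)

theorem map_seriesInf (f : R →+* S) (p : ℕ) (hp : p ≠ 0) (m a0 : ℤ) (w : PowerSeries ℤ) :
    (seriesInf R p hp m a0 w).map f = seriesInf S p hp m a0 w := by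
  simp only [seriesInf, map_sub, map_mul, map_add, map_pow, map_ofNat,
    map_intCast, map_natCast, PowerSeries.map_expand, map_sigR, map_map_intCast]

theorem alg_Inf {K : Type*} [CommRing K] (c3i cp2 cm ca0 w E : K) (h3 : c3i * 3 = 1)
    (hm : cp2 - 1 = 3 * cm) :
    c3i * (cp2 * ((ca0 + 9 * w) * (ca0 + 9 * w)) - ca0 ^ 2 * (1 + 240 * E)) =
      cm * ca0 ^ 2 + 3 * (2 * cp2 * ca0 * w + 9 * cp2 * w ^ 2) - 80 * ca0 ^ 2 * E := by
  linear_combination (c3i * ca0 ^ 2) * hm +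
    (cm * ca0 ^ 2 + 6 * cp2 * ca0 * w + 27 * cp2 * w ^ 2 - 80 * ca0 ^ 2 * E) * h3

theorem seriesInf_complex (p : ℕ) (hp : p ≠ 0) (m a0 : ℤ) (hm : (p : ℤ) ^ 2 - 1 = 3 * m)
    (w : PowerSeries ℤ) (u E : PowerSeries ℂ)
    (hu : u = PowerSeries.C (a0 : ℂ) + 9 * w.map (Int.castRingHom ℂ))
    (hE : E = 1 + 240 * sigR ℂ) :
    PowerSeries.expand p hp
        (PowerSeries.C (3 : ℂ)⁻¹ * (PowerSeries.C ((p : ℂ) ^ 2) * (u * u)
          - PowerSeries.C ((a0 : ℂ) ^ 2) * E)) =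
      seriesInf ℂ p hp m a0 w := by
  have h3 : PowerSeries.C (3 : ℂ)⁻¹ * 3 = 1 := by
    rw [ofNat_eq_C, ← map_mul]
    simp
  have h4 : PowerSeries.C ((p : ℂ) ^ 2) - 1 = 3 * PowerSeries.C (m : ℂ) := by
    have : ((p : ℂ) ^ 2) - 1 = 3 * (m : ℂ) := by exact_mod_cast congrArg (fun z : ℤ => (z : ℂ)) hm
    rw [ofNat_eq_C, ← map_mul, ← this, map_sub, map_one]
  rw [seriesInf, hu, hE, show PowerSeries.C ((a0 : ℂ) ^ 2) = PowerSeries.C (a0 : ℂ) ^ 2 from
    map_pow _ _ _]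
  congr 1
  exact alg_Inf (PowerSeries.C (3 : ℂ)⁻¹) (PowerSeries.C ((p : ℂ) ^ 2))
    (PowerSeries.C (m : ℂ)) (PowerSeries.C (a0 : ℂ))
    (w.map (Int.castRingHom ℂ)) (sigR ℂ) h3 h4

variable {κ : Type*} [Field κ]

theorem coeff_seriesInf_self (h3 : (3 : κ) = 0) (p : ℕ) (hp : p ≠ 0) (m a0 : ℤ)
    (w : PowerSeries ℤ) :
    PowerSeries.coeff p (seriesInf κ p hp m a0 w) = -80 * (a0 : κ) ^ 2 := by
  have h : (3 : PowerSeries κ) = 0 := by rw [ofNat_eq_C, h3, map_zero]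
  have e : (80 : PowerSeries κ) * PowerSeries.C (a0 : κ) ^ 2 =
      PowerSeries.C (80 * (a0 : κ) ^ 2) := by
    rw [map_mul, map_pow, map_ofNat]
  have e' : PowerSeries.C (m : κ) * PowerSeries.C (a0 : κ) ^ 2 =
      PowerSeries.C ((m : κ) * (a0 : κ) ^ 2) := by
    rw [map_mul, map_pow]
  rw [seriesInf, PowerSeries.coeff_expand, if_pos (dvd_refl p),
    Nat.div_self (Nat.pos_of_ne_zero hp), h, zero_mul, add_zero, map_sub, e', e,
    PowerSeries.coeff_C, if_neg one_ne_zero, zero_sub, PowerSeries.coeff_C_mul, coeff_one_sigR,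
    mul_one, neg_mul]

end Inf

/-! ### The decompositions `H = a₀ + 9 w`, `U_p H = a₀ + 9 w'` -/

/-- `w'` with `U_p H = a₀ + 9 w'`; for `p = 1` this is `w` with `H = a₀ + 9 w`. -/
noncomputable def wSeries (p : ℕ) (a : ℕ → ℤ) : PowerSeries ℤ :=
  PowerSeries.mk fun n => if n = 0 then 0 else a (p * n) / 9

theorem upSeries_eq (p : ℕ) (hp : p ≠ 0) (a : ℕ → ℤ) (h : PowerSeries ℂ)
    (hcoef : ∀ n, PowerSeries.coeff n h = (a n : ℂ))
    (hdiv : ∀ n, 1 ≤ n → ((3 ^ 2 : ℕ) : ℤ) ∣ a n) :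
    upSeries p h = PowerSeries.C ((a 0 : ℤ) : ℂ) + 9 * (wSeries p a).map (Int.castRingHom ℂ) := by
  ext n
  rw [upSeries, PowerSeries.coeff_mk, hcoef, map_add, PowerSeries.coeff_C, ofNat_eq_C,
    PowerSeries.coeff_C_mul, PowerSeries.coeff_map, wSeries, PowerSeries.coeff_mk]
  rcases Nat.eq_zero_or_pos n with rfl | hn
  · simp
  · rw [if_neg hn.ne', if_neg hn.ne', zero_add]
    have hd : (9 : ℤ) ∣ a (p * n) := by
      have := hdiv (p * n) (Nat.mul_pos (Nat.pos_of_ne_zero hp) hn)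
      simpa using this
    obtain ⟨c, hc⟩ := hd
    rw [hc, Int.mul_ediv_cancel_left _ (by norm_num : (9 : ℤ) ≠ 0)]
    simp

theorem series_eq (a : ℕ → ℤ) (h : PowerSeries ℂ)
    (hcoef : ∀ n, PowerSeries.coeff n h = (a n : ℂ))
    (hdiv : ∀ n, 1 ≤ n → ((3 ^ 2 : ℕ) : ℤ) ∣ a n) :
    h = PowerSeries.C ((a 0 : ℤ) : ℂ) + 9 * (wSeries 1 a).map (Int.castRingHom ℂ) := by
  rw [← upSeries_eq 1 one_ne_zero a h hcoef hdiv]
  ext n
  rw [upSeries, PowerSeries.coeff_mk, one_mul]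

end Fermat.Agent.H5.S16
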