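import Mathlib
import Fermat.Agent.H5.S16.ExpAlg
import Fermat.Agent.H1.S16L2.Interfaces

/-!
# P-S16 (helper5): the form `Y = (p² H² - c E₄) / 3` and the expansions of its translates

For `H ∈ M₂(Γ₀(p))` and a constant `c`, the weight-4 form `Y = (p² H² - c E₄) / 3` on `Γ₀(p)`
has the expansions (in `X = e(z / p)`)

* `Y ∣ γ = Y = expand p ((p² h² - c e₄) / 3)` for `γ ∈ Γ₀(p)`;
* `Y ∣ γ = Y ∣ S T^j = ((U_p h)(ζ^j X)² - c e₄(X^p)) / 3` for `γ ∈ Γ₀(p) S T^j`,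

where `h`, `e₄` are the `q`-expansions of `H`, `E₄`.  The second one uses
`Fermat.Agent.H1.S16L2.ConjStatement`.
-/

set_option autoImplicit false

namespace Fermat.Agent.H5.S16

open UpperHalfPlane CongruenceSubgroup ModularForm EisensteinSeries
open scoped MatrixGroups ModularForm Real
open Fermat.Agent.H6.S16UB (HasExp upSeries)

/-! ### Matrices -/

theorem ST_val (j : ℤ) :
    ((ModularGroup.S * ModularGroup.T ^ j : SL(2, ℤ)) : Matrix (Fin 2) (Fin 2) ℤ) =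
      !![0, -1; 1, j] := by
  rw [Matrix.SpecialLinearGroup.coe_mul, ModularGroup.coe_T_zpow, ModularGroup.coe_S,
    Matrix.mul_fin_two]
  simp

/-- `γ (S T^j)⁻¹` has lower left entry `c j - d`. -/
theorem mul_ST_inv_one_zero (γ : SL(2, ℤ)) (j : ℤ) :
    ((γ * (ModularGroup.S * ModularGroup.T ^ j)⁻¹ : SL(2, ℤ)) :
      Matrix (Fin 2) (Fin 2) ℤ) 1 0 = γ 1 0 * j - γ 1 1 := by
  have e10 : ((ModularGroup.S * ModularGroup.T ^ j : SL(2, ℤ)) :
      Matrix (Fin 2) (Fin 2) ℤ) 1 0 = 1 := by rw [ST_val]; rfl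
  have e11 : ((ModularGroup.S * ModularGroup.T ^ j : SL(2, ℤ)) :
      Matrix (Fin 2) (Fin 2) ℤ) 1 1 = j := by rw [ST_val]; rfl
  rw [Matrix.SpecialLinearGroup.coe_mul, Matrix.SpecialLinearGroup.SL2_inv_expl,
    Matrix.mul_apply, Fin.sum_univ_two]
  simp only [Matrix.cons_val', Matrix.cons_val_zero, Matrix.cons_val_one,
    Matrix.cons_val_fin_one, e11, e10]
  ring

/-- Every `γ ∈ SL₂(ℤ)` lies in `Γ₀(p)` or in `Γ₀(p) S T^j` for some `0 ≤ j < p`. -/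
theorem mem_Gamma0_or_exists {p : ℕ} (hp : p.Prime) (γ : SL(2, ℤ)) :
    γ ∈ Gamma0 p ∨ ∃ j : ℕ, j < p ∧
      γ * (ModularGroup.S * ModularGroup.T ^ (j : ℤ))⁻¹ ∈ Gamma0 p := by
  have : Fact p.Prime := ⟨hp⟩
  by_cases hc : ((γ 1 0 : ℤ) : ZMod p) = 0
  · left
    rw [Gamma0_mem]
    exact hc
  · right
    refine ⟨(((γ 1 1 : ℤ) : ZMod p) * ((γ 1 0 : ℤ) : ZMod p)⁻¹).val, ZMod.val_lt _, ?_⟩
    rw [Gamma0_mem, mul_ST_inv_one_zero]
    push_cast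
    rw [ZMod.natCast_zmod_val, mul_comm, mul_assoc, inv_mul_cancel₀ hc, mul_one, sub_self]

/-- `S T^j` is not in `Γ₀(p)`. -/
theorem ST_not_mem_Gamma0 {p : ℕ} (hp : p.Prime) (j : ℤ) :
    ModularGroup.S * ModularGroup.T ^ j ∉ Gamma0 p := by
  have : Fact p.Prime := ⟨hp⟩
  rw [Gamma0_mem, ST_val]
  simp

/-- The `S T^j`, `0 ≤ j < p`, are pairwise inequivalent modulo `Γ₀(p)`. -/
theorem ST_inequiv {p : ℕ} {j j' : ℕ} (hj : j < p) (hj' : j' < p)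
    (h : (ModularGroup.S * ModularGroup.T ^ (j : ℤ)) *
      (ModularGroup.S * ModularGroup.T ^ (j' : ℤ))⁻¹ ∈ Gamma0 p) : j = j' := by
  rw [Gamma0_mem, mul_ST_inv_one_zero, ST_val] at h
  simp only [Matrix.of_apply, Matrix.cons_val', Matrix.cons_val_one, Matrix.cons_val_zero,
    Matrix.cons_val_fin_one, one_mul] at h
  have h2 : ((j' : ℤ) - (j : ℤ) : ZMod p) = 0 := by
    have := h
    push_cast at this
    simpa using this
  have h3 : ((j' : ℕ) : ZMod p) = ((j : ℕ) : ZMod p) := by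
    have := sub_eq_zero.mp h2
    exact_mod_cast this
  have h4 := (ZMod.natCast_eq_natCast_iff' j' j p).mp h3
  rw [Nat.mod_eq_of_lt hj, Nat.mod_eq_of_lt hj'] at h4
  exact h4.symm

/-! ### The form `Y` -/

theorem Gamma0_map_le_SL (N : ℕ) :
    (Subgroup.map (Matrix.SpecialLinearGroup.mapGL ℝ) (Gamma0 N)) ≤ 𝒮ℒ := by
  rintro _ ⟨γ, -, rfl⟩
  exact ⟨γ, rfl⟩

/-- A level-one modular form, viewed as a modular form on `Γ₀(N)`. -/
def restrictGamma0 (N : ℕ) {k : ℤ} (g : ModularForm 𝒮ℒ k) : ModularForm (Gamma0 N) k where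
  toFun := g
  slash_action_eq' γ hγ := g.slash_action_eq' γ (Gamma0_map_le_SL N hγ)
  holo' := g.holo'
  bdd_at_cusps' hc := g.bdd_at_cusps' (hc.mono (Gamma0_map_le_SL N))

@[simp] theorem coe_restrictGamma0 (N : ℕ) {k : ℤ} (g : ModularForm 𝒮ℒ k) :
    ⇑(restrictGamma0 N g) = ⇑g := rfl

/-- `Y = (p² H² - c E₄) / 3` as a modular form of weight 4 on `Γ₀(p)`. -/
noncomputable def formY (p : ℕ) (H : ModularForm (Gamma0 p) 2) (c : ℂ) :
    ModularForm (Gamma0 p) ((4 : ℕ) : ℤ) :=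
  (3 : ℂ)⁻¹ • (((p : ℂ) ^ 2) • ModularForm.mcast (show (2 : ℤ) + 2 = ((4 : ℕ) : ℤ) by norm_num)
      (H.mul H) - c • restrictGamma0 p E₄)

theorem coe_formY (p : ℕ) (H : ModularForm (Gamma0 p) 2) (c : ℂ) :
    ⇑(formY p H c) = (3 : ℂ)⁻¹ • (((p : ℂ) ^ 2) • (⇑H * ⇑H) - c • ⇑E₄) := rfl

/-- The translates of `Y`. -/
theorem formY_slash (p : ℕ) (H : ModularForm (Gamma0 p) 2) (c : ℂ) (γ : SL(2, ℤ)) :
    ⇑(formY p H c) ∣[(((4 : ℕ) : ℤ))] γ =
      (3 : ℂ)⁻¹ • (((p : ℂ) ^ 2) • ((⇑H ∣[(2 : ℤ)] γ) * (⇑H ∣[(2 : ℤ)] γ)) - c • ⇑E₄) := by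
  have hE : (⇑E₄) ∣[(4 : ℤ)] γ = ⇑E₄ := by
    rw [ModularForm.SL_slash]
    exact SlashInvariantForm.slash_action_eqn E₄ _ ⟨γ, rfl⟩
  have hmul : (⇑H * ⇑H) ∣[(4 : ℤ)] γ = (⇑H ∣[(2 : ℤ)] γ) * (⇑H ∣[(2 : ℤ)] γ) :=
    ModularForm.mul_slash_SL2 2 2 γ ⇑H ⇑H
  rw [coe_formY]
  show ((3 : ℂ)⁻¹ • (((p : ℂ) ^ 2) • (⇑H * ⇑H) - c • ⇑E₄)) ∣[(4 : ℤ)] γ = _
  rw [ModularForm.SL_smul_slash, sub_eq_add_neg, SlashAction.add_slash, SlashAction.neg_slash,
    ModularForm.SL_smul_slash, ModularForm.SL_smul_slash, hE, hmul, ← sub_eq_add_neg]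

/-- The translates of `Y` by `Γ₀(p) γ` only depend on the coset. -/
theorem formY_slash_mul (p : ℕ) (H : ModularForm (Gamma0 p) 2) (c : ℂ) (γ₀ γ : SL(2, ℤ))
    (h : γ₀ ∈ Gamma0 p) :
    ⇑(formY p H c) ∣[(((4 : ℕ) : ℤ))] (γ₀ * γ) = ⇑(formY p H c) ∣[(((4 : ℕ) : ℤ))] γ := by
  rw [SlashAction.slash_mul]
  congr 1
  rw [ModularForm.SL_slash]
  exact SlashInvariantForm.slash_action_eqn (formY p H c) _ (Subgroup.mem_map_of_mem _ h)

/-! ### Expansions -/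

theorem hasExpPS_one_Gamma0 {p : ℕ} [NeZero p] {k : ℤ} (H : ModularForm (Gamma0 p) k) :
    HasExpPS 1 (⇑H) (qExpansion 1 (⇑H)) := by
  intro z
  have h := ModularForm.hasSum_qExpansion (f := H) one_pos (by simp) z
  simpa using h

theorem hasExpPS_one_levelOne {k : ℤ} (E : ModularForm 𝒮ℒ k) :
    HasExpPS 1 (⇑E) (qExpansion 1 (⇑E)) := by
  intro z
  have h := ModularForm.hasSum_qExpansion (f := E) one_pos (by simp) z
  simpa using h

/-- The expansion of `H ∣ S T^j` in `e(z / p)`. -/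
theorem hasExpPS_conj (hC : Fermat.Agent.H1.S16L2.ConjStatement) {p : ℕ} (hp : p.Prime)
    (H : ModularForm (Gamma0 p) 2) (j : ℕ) :
    HasExpPS p (⇑H ∣[(2 : ℤ)] (ModularGroup.S * ModularGroup.T ^ (j : ℤ)))
      (PowerSeries.C (-(p : ℂ)⁻¹) *
        PowerSeries.rescale (Complex.exp (2 * π * Complex.I / p) ^ j)
          (upSeries p (qExpansion 1 (⇑H)))) := by
  intro z
  have h := hC p hp H j z
  have hp0 : (p : ℂ) ≠ 0 := by exact_mod_cast hp.ne_zero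
  convert h using 2 with n
  show PowerSeries.coeff n (PowerSeries.C (-(p : ℂ)⁻¹) *
        PowerSeries.rescale (Complex.exp (2 * π * Complex.I / p) ^ j)
          (upSeries p (qExpansion 1 (⇑H)))) * Function.Periodic.qParam (p : ℝ) (z : ℂ) ^ n = _
  rw [PowerSeries.coeff_C_mul, PowerSeries.coeff_rescale, upSeries, PowerSeries.coeff_mk,
    Function.Periodic.qParam]
  have e : (Complex.exp (2 * π * Complex.I / p) ^ j) ^ n *
      Complex.exp (2 * π * Complex.I * (z : ℂ) / ((p : ℝ) : ℂ)) ^ n =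
      Complex.exp (2 * π * Complex.I * n * ((z : ℂ) + ((j : ℤ) : ℂ)) / p) := by
    rw [← Complex.exp_nat_mul, ← Complex.exp_nat_mul, ← Complex.exp_nat_mul, ← Complex.exp_add]
    congr 1
    push_cast
    field_simp
    ring
  rw [← e]
  ring

/-- The expansion of `Y ∣ γ` for `γ ∈ Γ₀(p) S T^j`. -/
theorem hasExpPS_formY_ST (hC : Fermat.Agent.H1.S16L2.ConjStatement) {p : ℕ} (hp : p.Prime)
    (H : ModularForm (Gamma0 p) 2) (c : ℂ) (j : ℕ) (γ : SL(2, ℤ))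
    (hγ : γ * (ModularGroup.S * ModularGroup.T ^ (j : ℤ))⁻¹ ∈ Gamma0 p) :
    HasExpPS p (⇑(formY p H c) ∣[(((4 : ℕ) : ℤ))] γ)
      (PowerSeries.C (3 : ℂ)⁻¹ * (PowerSeries.C ((p : ℂ) ^ 2) *
        ((PowerSeries.C (-(p : ℂ)⁻¹) *
          PowerSeries.rescale (Complex.exp (2 * π * Complex.I / p) ^ j)
            (upSeries p (qExpansion 1 (⇑H)))) *
         (PowerSeries.C (-(p : ℂ)⁻¹) *
          PowerSeries.rescale (Complex.exp (2 * π * Complex.I / p) ^ j)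
            (upSeries p (qExpansion 1 (⇑H)))))
        - PowerSeries.C c * PowerSeries.expand p hp.ne_zero (qExpansion 1 (⇑E₄)))) := by
  have hγ' : γ = (γ * (ModularGroup.S * ModularGroup.T ^ (j : ℤ))⁻¹) *
      (ModularGroup.S * ModularGroup.T ^ (j : ℤ)) := by group
  rw [hγ', formY_slash_mul p H c _ _ hγ, formY_slash]
  have h1 := hasExpPS_conj hC hp H j
  have h2 := (hasExpPS_one_levelOne E₄).expand p hp.ne_zero
  exact (((h1.mul h1).smul _).sub (h2.smul c)).smul _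

/-- The expansion of `Y ∣ γ` for `γ ∈ Γ₀(p)`. -/
theorem hasExpPS_formY_mem {p : ℕ} (hp : p.Prime)
    (H : ModularForm (Gamma0 p) 2) (c : ℂ) (γ : SL(2, ℤ)) (hγ : γ ∈ Gamma0 p) :
    HasExpPS p (⇑(formY p H c) ∣[(((4 : ℕ) : ℤ))] γ)
      (PowerSeries.expand p hp.ne_zero
        (PowerSeries.C (3 : ℂ)⁻¹ * (PowerSeries.C ((p : ℂ) ^ 2) *
          (qExpansion 1 (⇑H) * qExpansion 1 (⇑H))
          - PowerSeries.C c * qExpansion 1 (⇑E₄)))) := by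
  have : NeZero p := ⟨hp.ne_zero⟩
  have hs : ⇑(formY p H c) ∣[(((4 : ℕ) : ℤ))] γ = ⇑(formY p H c) := by
    rw [ModularForm.SL_slash]
    exact SlashInvariantForm.slash_action_eqn (formY p H c) _ (Subgroup.mem_map_of_mem _ hγ)
  rw [hs, coe_formY]
  have h1 := hasExpPS_one_Gamma0 H
  have h2 := hasExpPS_one_levelOne E₄
  exact ((((h1.mul h1).smul _).sub (h2.smul c)).smul _).expand p hp.ne_zero

end Fermat.Agent.H5.S16
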