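import Mathlib
import Fermat.Agent.H5.S16.Translates
import Fermat.Agent.H5.S16.Reduction
import Fermat.Agent.H6.S16UB.SturmMod
import Fermat.Agent.H57.Gamma0Index

/-!
# P-S16, row UB-9 (helper5): `NoUnitNineStatement`

For a prime `p ≠ 3`, a weight-2 form `H` on `Γ₀(p)` with integer `q`-expansion whose higher
coefficients are divisible by `9` has constant term divisible by `3`.

Proof: otherwise `Y = (p² H² - a₀² E₄) / 3` is a weight-4 form on `Γ₀(p)` all of whose translates
have expansions in `e(z / p)` with algebraic integer coefficients which are nonzero modulo a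
prime over `3`; the `p` translates `Y ∣ S T^j` are `≡ -80 a₀² ∑ σ₃(n) X^(p n)`, of order `p`.
The norm inequality gives `12 p² ≤ 4 p (p + 1)`, which is absurd.
-/

set_option autoImplicit false

namespace Fermat.Agent.H5.S16

open UpperHalfPlane CongruenceSubgroup ModularForm EisensteinSeries
open scoped MatrixGroups ModularForm Real
open Fermat.Agent.H6.S16UB

theorem dedekindPsi_prime' {p : ℕ} (hp : p.Prime) : ModularCurve.dedekindPsi p = p + 1 := by
  rw [ModularCurve.dedekindPsi, Nat.Prime.divisors hp, Finset.filter_true_of_mem,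
    Finset.sum_pair hp.one_lt.ne, Nat.div_one, Nat.div_self hp.pos]
  intro d hd
  rcases Finset.mem_insert.mp hd with rfl | hd
  · exact squarefree_one
  · rw [Finset.mem_singleton.mp hd]
    exact hp.squarefree

theorem exists_sq_sub_one {p : ℕ} (hp : p.Prime) (hp3 : p ≠ 3) :
    ∃ m : ℤ, (p : ℤ) ^ 2 - 1 = 3 * m := by
  have h3 : ¬ 3 ∣ p := fun h => hp3 ((Nat.prime_dvd_prime_iff_eq Nat.prime_three hp).mp h).symm
  have hmod : p % 3 = 1 ∨ p % 3 = 2 := by omega
  rcases hmod with h | h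
  · refine ⟨3 * (p / 3 : ℕ) ^ 2 + 2 * (p / 3 : ℕ), ?_⟩
    have e : (p : ℤ) = 3 * (p / 3 : ℕ) + 1 := by
      have := Nat.div_add_mod p 3
      rw [h] at this
      exact_mod_cast this.symm
    rw [e]
    ring
  · refine ⟨3 * (p / 3 : ℕ) ^ 2 + 4 * (p / 3 : ℕ) + 1, ?_⟩
    have e : (p : ℤ) = 3 * (p / 3 : ℕ) + 2 := by
      have := Nat.div_add_mod p 3
      rw [h] at this
      exact_mod_cast this.symm
    rw [e]
    ring

theorem qExpansion_E₄_eq_sigR : qExpansion 1 E₄ = 1 + 240 * sigR ℂ := by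
  rw [qExpansion_E₄_eq, sigR, map_add, map_mul, map_one, map_intCast]
  norm_num

/-- **P-S16, UB-9.** -/
theorem noUnitNine (hC : Fermat.Agent.H1.S16L2.ConjStatement) (hN : NormMachineStatement) :
    NoUnitNineStatement := by
  intro p hp hp3 H a hcoef hdiv
  by_contra h3
  have hp0 : p ≠ 0 := hp.ne_zero
  have : NeZero p := ⟨hp0⟩
  have hζint : IsIntegral ℤ (Complex.exp (2 * π * Complex.I / p)) :=
    (Complex.isPrimitiveRoot_exp p hp0).isIntegral hp.pos
  obtain ⟨A, κ, _, φ, ζA, hζA, h3κ, hφ⟩ := exists_reduction _ hζint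
  obtain ⟨m, hm⟩ := exists_sq_sub_one hp hp3
  have hu := upSeries_eq p hp0 a _ hcoef hdiv
  have hh := series_eq a _ hcoef hdiv
  have hE := qExpansion_E₄_eq_sigR
  -- the leading coefficient is nonzero in `κ`
  have hne : (-80 * ((a 0 : ℤ) : κ) ^ 2) ≠ 0 := by
    intro h0
    have h1 : φ (((-80 * (a 0) ^ 2 : ℤ)) : A) = 0 := by
      rw [map_intCast]
      push_cast
      exact h0
    have h2 := hφ _ h1
    rcases Int.prime_three.dvd_or_dvd h2 with h4 | h4
    · norm_num at h4
    · exact h3 (by exact_mod_cast Int.prime_three.dvd_of_dvd_pow h4)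
  -- the expansions of all translates
  have key : ∀ γ : SL(2, ℤ), ∃ B : PowerSeries A,
      HasExp p (⇑(formY p H ((a 0 : ℂ) ^ 2)) ∣[(((4 : ℕ) : ℤ))] γ)
        (fun n => ((PowerSeries.coeff n B : A) : ℂ)) ∧
      PowerSeries.coeff p (B.map φ) ≠ 0 ∧
      ((∃ j : ℕ, γ = ModularGroup.S * ModularGroup.T ^ (j : ℤ)) →
        ∀ i : ℕ, i < p → PowerSeries.coeff i (B.map φ) = 0) := by
    intro γ
    rcases mem_Gamma0_or_exists hp γ with hγ | ⟨j, -, hγ⟩
    · refine ⟨seriesInf A p hp0 m (a 0) (wSeries 1 a), ?_, ?_, ?_⟩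
      · have h1 := hasExpPS_formY_mem hp H ((a 0 : ℂ) ^ 2) γ hγ
        rw [seriesInf_complex p hp0 m (a 0) hm (wSeries 1 a) _ _ hh hE,
          ← map_seriesInf A.subtype] at h1
        intro z
        have h2 := h1 z
        simp only [PowerSeries.coeff_map] at h2
        exact h2
      · rw [map_seriesInf, coeff_seriesInf_self h3κ]
        exact hne
      · rintro ⟨j, rfl⟩
        exact absurd hγ (ST_not_mem_Gamma0 hp j)
    · refine ⟨seriesST A p hp0 (ζA ^ j) (a 0) (wSeries p a), ?_, ?_, ?_⟩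
      · have h1 := hasExpPS_formY_ST hC hp H ((a 0 : ℂ) ^ 2) j γ hγ
        have h2 : (seriesST A p hp0 (ζA ^ j) (a 0) (wSeries p a)).map A.subtype =
            seriesST ℂ p hp0 (Complex.exp (2 * π * Complex.I / p) ^ j) (a 0) (wSeries p a) := by
          rw [map_seriesST, map_pow]
          congr 2
        rw [seriesST_complex p hp0 _ (a 0) (wSeries p a) _ _ hu hE, ← h2] at h1
        intro z
        have h4 := h1 z
        simp only [PowerSeries.coeff_map] at h4
        exact h4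
      · rw [map_seriesST, coeff_seriesST_self h3κ]
        exact hne
      · intro _ i hi
        rw [map_seriesST]
        exact coeff_seriesST_of_lt h3κ p hp0 _ _ _ hi
  choose b hb1 hb2 hb3 using key
  have hb0 : ∀ γ, (b γ).map φ ≠ 0 := fun γ h => hb2 γ (by rw [h]; simp)
  -- the family `S T^j`
  have hinj : Set.InjOn (fun j : ℕ => ModularGroup.S * ModularGroup.T ^ (j : ℤ))
      (Finset.range p : Set ℕ) := by
    intro j hj j' hj' h
    refine ST_inequiv (p := p) (Finset.mem_range.mp hj) (Finset.mem_range.mp hj') ?_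
    simp only at h
    rw [h, mul_inv_cancel]
    exact Subgroup.one_mem _
  have hS : ∀ γ ∈ (Finset.range p).image (fun j : ℕ => ModularGroup.S * ModularGroup.T ^ (j : ℤ)),
      ∀ γ' ∈ (Finset.range p).image (fun j : ℕ => ModularGroup.S * ModularGroup.T ^ (j : ℤ)),
      γ * γ'⁻¹ ∈ Gamma0 p → γ = γ' := by
    intro γ hγ γ' hγ' h
    obtain ⟨j, hj, rfl⟩ := Finset.mem_image.mp hγ
    obtain ⟨j', hj', rfl⟩ := Finset.mem_image.mp hγ'
    rw [ST_inequiv (Finset.mem_range.mp hj) (Finset.mem_range.mp hj') h]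
  have hmain := hN (Gamma0 p) 4 (formY p H ((a 0 : ℂ) ^ 2)) p hp.pos A κ φ b hb1 hb0 _ hS
  rw [Finset.sum_image hinj, Fermat.Agent.H57.index_Gamma0, dedekindPsi_prime' hp] at hmain
  have hsum : ((p * p : ℕ) : ℕ∞) ≤ ∑ j ∈ Finset.range p,
      ((b (ModularGroup.S * ModularGroup.T ^ (j : ℤ))).map φ).order := by
    calc ((p * p : ℕ) : ℕ∞) = ∑ j ∈ Finset.range p, (p : ℕ∞) := by simp
      _ ≤ _ := Finset.sum_le_sum fun j _ => PowerSeries.le_order _ _ fun i hi =>
          hb3 _ ⟨j, rfl⟩ i (by exact_mod_cast hi)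
  have h5 : ((12 * (p * p) : ℕ) : ℕ∞) ≤ ((p * (4 * (p + 1)) : ℕ) : ℕ∞) := by
    refine le_trans ?_ hmain
    have h7 : ((12 * (p * p) : ℕ) : ℕ∞) = 12 * ((p * p : ℕ) : ℕ∞) := by push_cast; rfl
    rw [h7]
    gcongr
  have h6 : 12 * (p * p) ≤ p * (4 * (p + 1)) := by exact_mod_cast h5
  nlinarith [hp.two_le]

end Fermat.Agent.H5.S16
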